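import Fermat.Statements.S32
import Fermat.Agent.MCurve.Flat.Torsion
import Fermat.Agent.MCurve.Flat.KummerSurj
import Fermat.Agent.MCurve.Flat.Closure
import Fermat.Agent.GalRep.Flat.Main

set_option autoImplicit false
variable {p : ℕ} {N : ℕ} [NeZero N] {S : Finset ℕ}
  {𝒪 : Type} [CommRing 𝒪] [IsDomain 𝒪] [IsDiscreteValuationRing 𝒪]
  [IsAdicComplete (IsLocalRing.maximalIdeal 𝒪) 𝒪]
  {θ : CuspForm.heckeAlgebra N 2 (↑S : Set ℕ) →+* IsLocalRing.ResidueField 𝒪}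
  {T : Type} [CommRing T] [IsLocalRing T] [IsNoetherianRing T]
  [IsAdicComplete (IsLocalRing.maximalIdeal T) T] [Algebra 𝒪 T] [IsLocalHom (algebraMap 𝒪 T)]
  [Module.Finite 𝒪 T] [Module.Free 𝒪 T]
open CuspForm CuspForm.HeckeGaloisRepDatum

namespace Fermat.Agent.S32

theorem result
    [Finite (IsLocalRing.ResidueField 𝒪)] [CharZero 𝒪]
    (hp : p.Prime) (hp2 : p ≠ 2) (hp𝒪 : (p : 𝒪) ∈ IsLocalRing.maximalIdeal 𝒪) (hpN : ¬ p ∣ N)
    (hpS : p ∈ S) (hNS : ∀ q : ℕ, q.Prime → q ∣ N → q ∈ S)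
    (H : CuspForm.HeckeGaloisRepDatum N (↑S : Set ℕ) 𝒪 θ T) :
    H.ρ.IsFlatAt p := by
  haveI : Fact p.Prime := ⟨hp⟩
  haveI : NeZero p := ⟨hp.ne_zero⟩
  refine Fermat.Agent.GalRep.Flat.isFlatAt_of_levels hp𝒪 H (fun n => ?_)
    (fun f hf hσ h => h.of_injective f hσ hf) (fun f hf hσ h => h.of_surjective f hσ hf)
    fun ι _ h => h.pi ι
  haveI : NeZero (p ^ n) := ⟨pow_ne_zero n hp.ne_zero⟩
  haveI := Fermat.Agent.MCurve.Flat.finite_torsionBy N (p ^ n)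
  exact ⟨_, inferInstance, inferInstance, inferInstance,
    Fermat.Agent.MCurve.Flat.kummerMap N (p ^ n),
    Fermat.Agent.MCurve.Flat.kummerMap_injective N (p ^ n),
    fun σ z => Fermat.Agent.MCurve.Flat.kummerMap_smul N (p ^ n) σ z (σ • z) rfl,
    fun v => Fermat.Agent.MCurve.Flat.exists_kummerMap_eq N (n := p ^ n)
      (fun γ hγ => by
        obtain ⟨k, hk, hk1⟩ := isOfFinOrder_iff_pow_eq_one.mp hγ
        have h : k • (v : Additive (CongruenceSubgroup.Gamma0 N) →+ ℤ_[p]) (Additive.ofMul γ) = 0 := by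
          rw [← map_nsmul, ← ofMul_pow, hk1, ofMul_one, map_zero]
        rw [Fermat.Agent.GalRep.redPow_apply, (nsmul_eq_zero_iff.mp h).resolve_right hk.ne',
          map_zero]),
    Fermat.Agent.MCurve.Flat.hasFlatModel_torsion hpN (p ^ n)⟩

end Fermat.Agent.S32
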