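import Fermat.Statements.S44
import Fermat.Agent.GalRep.Wild.Lowering
import Fermat.Agent.GalRep.Wild.WildPart
import Fermat.Agent.GalRep.Wild.NonEisenstein

set_option autoImplicit false
open WeierstrassCurve WeierstrassCurve.Affine WeierstrassCurve.Affine.Point
open CuspForm ModularFormClass UpperHalfPlane
open FreyPackage

namespace Fermat.Agent.S44

theorem result (P : FreyPackage) {N : ℕ} (hcond : P.IsConductorLevel N) (hpN : P.p ∣ N) (hirr : GaloisRepIsIrreducible (K := AlgebraicClosure ℚ) ℚ P.freyCurve P.p) (hmod : P.ModularRepOfLevel N) : ∃ M : ℕ, M ∣ N ∧ ¬ P.p ∣ M ∧ P.ModularRepOfLevel M := by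
  haveI : Fact P.p.Prime := ⟨P.pp⟩
  haveI : NeZero P.p := ⟨P.hp0⟩
  have hd := hcond.p_dvd_abc hpN
  obtain ⟨m, rfl⟩ := hpN
  have hm : 0 < m := Nat.pos_of_ne_zero fun h => by
    have := hcond.pos
    simp [h] at this
  haveI : NeZero m := ⟨hm.ne'⟩
  haveI : NeZero (P.p * m) := ⟨hcond.pos.ne'⟩
  have hpm : ¬ P.p ∣ m := fun h => hcond.sq_not_dvd P.pp (by rw [sq]; exact mul_dvd_mul_left _ h)
  exact ⟨m, dvd_mul_left m _, hpm, Fermat.Agent.GalRep.Wild.modularRepOfLevel_of_wild P hpm hd hirr hmod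
    (Fermat.Agent.GalRep.Wild.wildStatement P m)
    fun _ hW M _ S hS => Fermat.Agent.GalRep.Wild.exists_prime_nonEisenstein P hirr hW M S hS⟩

end Fermat.Agent.S44
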