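import Fermat.Statements.S11
import Fermat.Agent.Mazur.ElevenMain
import Fermat.Agent.Mazur.FreyFacts

set_option autoImplicit false
open WeierstrassCurve WeierstrassCurve.Affine WeierstrassCurve.Affine.Point
open CuspForm ModularFormClass UpperHalfPlane
open FreyPackage

namespace Fermat.Agent.S11

theorem result (P : FreyPackage) (hp : P.p = 11) : ¬ HasGaloisStableCofixedLine (K := AlgebraicClosure ℚ) ℚ P.freyCurve P.p := by
  rw [hp]
  rintro ⟨N, hN, hb, ht, -⟩
  rcases Fermat.Agent.Mazur.stable_line_eleven P.freyCurve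
      (Fermat.Agent.Mazur.freyCurve_delta_ne_zero P) hN hb ht with h | h | h
  · exact Fermat.Agent.Mazur.freyCurve_c4_cube_ne P (-121) (by push_cast; exact h)
  · exact Fermat.Agent.Mazur.freyCurve_c4_cube_ne P (-32768) (by push_cast; exact h)
  · exact Fermat.Agent.Mazur.freyCurve_c4_cube_ne P (-24729001) (by push_cast; exact h)

end Fermat.Agent.S11
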