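import Fermat.Statements.S33
import Fermat.Agent.GalRep.Ordinary.NoOrdInKer
import Fermat.Agent.GalRep.Ordinary.Datum

set_option autoImplicit false
variable {p : ℕ} {N : ℕ} [NeZero N] {S : Finset ℕ}
  {𝒪 : Type} [CommRing 𝒪] [IsDomain 𝒪] [IsDiscreteValuationRing 𝒪]
  [IsAdicComplete (IsLocalRing.maximalIdeal 𝒪) 𝒪]
  {θ : CuspForm.heckeAlgebra N 2 (↑S : Set ℕ) →+* IsLocalRing.ResidueField 𝒪}
  {T : Type} [CommRing T] [IsLocalRing T] [IsNoetherianRing T]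
  [IsAdicComplete (IsLocalRing.maximalIdeal T) T] [Algebra 𝒪 T] [IsLocalHom (algebraMap 𝒪 T)]
  [Module.Finite 𝒪 T] [Module.Free 𝒪 T]
open CuspForm CuspForm.HeckeGaloisRepDatum

namespace Fermat.Agent.S33

theorem result
    [Finite (IsLocalRing.ResidueField 𝒪)] [CharZero 𝒪]
    (hp : p.Prime) (hp2 : p ≠ 2) (hp𝒪 : (p : 𝒪) ∈ IsLocalRing.maximalIdeal 𝒪) (hN : p ∣ N ∧ ¬ p ^ 2 ∣ N)
    (hNS : ∀ q : ℕ, q.Prime → q ∣ N → q ∈ S)
    (H : CuspForm.HeckeGaloisRepDatum N (↑S : Set ℕ) 𝒪 θ T)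
    (hres : (GaloisRepAdic.ofResidualGaloisRep H.ρ.residual).IsOrdinaryAt p) :
    H.ρ.IsOrdinaryAt p := by
  obtain ⟨m, rfl⟩ := hN.1
  haveI : NeZero p := ⟨hp.ne_zero⟩
  haveI : NeZero m := ⟨fun h => NeZero.ne (p * m) (by rw [h, mul_zero])⟩
  have hpm : ¬ p ∣ m := fun h => hN.2 (by rw [pow_two]; exact mul_dvd_mul_left p h)
  exact Fermat.Agent.GalRep.Ordinary.isOrdinaryAt_of_heckeDatum hp hp2 hpm
    (fun {_} => Fermat.Agent.GalRep.Ordinary.noOrdInKer hp2 hpm) hp𝒪 H hres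

end Fermat.Agent.S33
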