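import Fermat.Statements.S36
import Fermat.Agent.NewVec.Conclude
import Fermat.Agent.NewVec.Vanish
import Fermat.Agent.GalRep.Adic
import Fermat.Agent.GalRep.Model.Reduction
import Fermat.Agent.Galois.Places

set_option autoImplicit false
set_option autoImplicit false
open Polynomial
open CuspForm CuspForm.IsNewform

namespace Fermat.Agent.S36

theorem result
    {M : ℕ} [NeZero M] {g : CuspForm (CongruenceSubgroup.Gamma0 M) 2} (hg : g.IsNewform)
    (lam : ℕ) [Fact lam.Prime]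
    (S : Finset ℕ)
    (O' : Type) [CommRing O'] [IsDomain O'] [IsDiscreteValuationRing O']
    [IsAdicComplete (IsLocalRing.maximalIdeal O') O'] [Finite (IsLocalRing.ResidueField O')]
    [CharZero O'] (hlamO' : (lam : O') ∈ IsLocalRing.maximalIdeal O')
    (hlam2 : lam ≠ 2)
    (chig : CuspForm.heckeAlgebra M 2 (↑S : Set ℕ) →+* ℂ)
    (hchig : ∀ (ℓ : ℕ) (hℓ : ℓ.Prime) (hℓM : ¬ ℓ ∣ M) (hℓS : ℓ ∉ (↑S : Set ℕ)),
      chig (CuspForm.heckeAlgebra.T hℓ hℓM hℓS) = ModularFormClass.qCoeff g ℓ)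
    (iota : chig.range →+* O')
    (hlamS : lam ∈ S) (hMS : ∀ q : ℕ, q.Prime → q ∣ M → q ∈ S)
    (hres : ∀ (O'' : Type) [CommRing O''] [IsDomain O''] [IsDiscreteValuationRing O'']
      [IsAdicComplete (IsLocalRing.maximalIdeal O'') O''] [Finite (IsLocalRing.ResidueField O'')] [CharZero O'']
      [Algebra O' O''] [Module.Finite O' O''] [IsLocalHom (algebraMap O' O'')],
      Function.Injective (algebraMap O' O'') → ∀ (ρ : GaloisRepAdic O''),
      (∀ (ℓ : ℕ) (hℓ : ℓ.Prime) (hℓlam : ℓ ≠ lam) (hℓM : ¬ ℓ ∣ M) (hℓS : ℓ ∉ (↑S : Set ℕ)),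
        ∀ A : ValuationSubring (AlgebraicClosure ℚ), A.LiesOverPrime ℓ →
          ∀ σ : AlgebraicClosure ℚ ≃ₐ[ℚ] AlgebraicClosure ℚ, A.IsFrobeniusAt σ ℓ →
            LinearMap.charpoly (ρ.ρ σ) =
              X ^ 2 - C (algebraMap O' O'' ((iota.comp chig.rangeRestrict) (CuspForm.heckeAlgebra.T hℓ hℓM hℓS))) * X
                + C ((ℓ : O'')))
      → ρ.residual.IsAbsolutelyIrreducible ∧ ρ.residual.IsOdd)
    :
    ∃ (O'' : Type) (_ : CommRing O'') (_ : IsDomain O'') (_ : IsDiscreteValuationRing O'')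
      (_ : IsAdicComplete (IsLocalRing.maximalIdeal O'') O'') (_ : Finite (IsLocalRing.ResidueField O''))
      (_ : CharZero O'') (_ : Algebra O' O'') (_ : Module.Finite O' O'') (_ : IsLocalHom (algebraMap O' O'')),
      Function.Injective (algebraMap O' O'') ∧
      ∃ ρ : GaloisRepAdic O'',
        (∀ (ℓ : ℕ) (hℓ : ℓ.Prime) (hℓM : ¬ ℓ ∣ M) (hℓS : ℓ ∉ (↑S : Set ℕ)),
          ∀ A : ValuationSubring (AlgebraicClosure ℚ), A.LiesOverPrime ℓ →
            ∀ σ : AlgebraicClosure ℚ ≃ₐ[ℚ] AlgebraicClosure ℚ, A.IsFrobeniusAt σ ℓ →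
              LinearMap.charpoly (ρ.ρ σ) =
                X ^ 2 - C (algebraMap O' O'' ((iota.comp chig.rangeRestrict) (CuspForm.heckeAlgebra.T hℓ hℓM hℓS))) * X
                  + C ((ℓ : O''))) ∧
        (∀ q : ℕ, q.Prime → q ≠ lam → M.factorization q = 2 → ¬ ρ.IsUnipotentOnInertiaAt q) := by
  classical
  obtain ⟨O'', i1, i2, i3, i4, i5, i6, i7, i8, i9, hinj, ρ, hρ, -⟩ :=
    Fermat.Agent.GalRep.exists_galoisRepAdic
      (Fermat.Agent.NewVec.latDatum M lam (Fermat.Agent.GalRep.Model.kummerReduction M))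
      S hlamS O' hlamO' (iota.comp chig.rangeRestrict)
  refine ⟨O'', i1, i2, i3, i4, i5, i6, i7, i8, i9, hinj, ρ, hρ, fun q hq hql hfac hu => ?_⟩
  obtain ⟨m, hm⟩ : q * q ∣ M := by
    have := Nat.ordProj_dvd M q
    rwa [hfac, pow_two] at this
  subst hm
  haveI : NeZero q := ⟨hq.ne_zero⟩
  haveI : NeZero m := ⟨right_ne_zero_of_mul (NeZero.ne (q * q * m))⟩
  have hqm : ¬ q ∣ m := fun h => by
    have := (hq.pow_dvd_iff_le_factorization (k := 3) (NeZero.ne (q * q * m))).mp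
      (by rw [show q ^ 3 = q * q * q by ring]; exact mul_dvd_mul_left _ h)
    omega
  haveI : Fact (Nat.Coprime q m) := ⟨hq.coprime_iff_not_dvd.mpr hqm⟩
  obtain ⟨A, hA⟩ := Fermat.Agent.Galois.exists_liesOverPrime hq
  have hp : (lam : O'') ∈ IsLocalRing.maximalIdeal O'' := fun h => hlamO'
    (isUnit_of_map_unit (algebraMap O' O'') _ (by rwa [map_natCast]))
  obtain ⟨v, hv0, hvI, hvan⟩ := Fermat.Agent.NewVec.exists_fixed_sum_zero
    (Fermat.Agent.GalRep.Model.kummerReduction _) (Fermat.Agent.GalRep.Model.kummerReduction _)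
    hq hql hg S hlamS hMS chig hchig hp ((algebraMap O' O'').comp iota) ρ hρ hu hA
  exact hv0 (Fermat.Agent.NewVec.eq_zero_of_fixed_of_sum_zero hq hA hql hqm
    (Fermat.Agent.GalRep.Model.kummerReduction _) v hvI hvan)

end Fermat.Agent.S36
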