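import Fermat.Statements.S02
-- import your own Fermat.Agent.* helpers here

set_option autoImplicit false
open FreyPackage

namespace Fermat.Agent.S02

private theorem mk_of_even (a b c : ℤ) (ha : a ≠ 0) (hb : b ≠ 0) (hc : c ≠ 0) (p : ℕ)
    (pp : p.Prime) (hp5 : 5 ≤ p) (H : a ^ p + b ^ p = c ^ p) (hg : gcd a b = 1) (hb2 : Even b) :
    Nonempty FreyPackage := by
  have hao : Odd a := by
    rw [← Int.not_even_iff_odd]
    intro hae
    have h2 : (2 : ℤ) ∣ gcd a b := dvd_gcd (even_iff_two_dvd.1 hae) (even_iff_two_dvd.1 hb2)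
    rw [hg] at h2
    omega
  have hop : Odd p := pp.odd_of_ne_two (by omega)
  have hb0 : (b : ZMod 2) = 0 := (ZMod.intCast_zmod_eq_zero_iff_dvd b 2).2 (even_iff_two_dvd.1 hb2)
  obtain h | h : a % 4 = 3 ∨ a % 4 = 1 := by
    obtain ⟨k, rfl⟩ := hao
    omega
  · exact ⟨⟨a, b, c, ha, hb, hc, p, pp, hp5, H, hg, by
      rw [show (3 : ZMod 4) = ((3 : ℤ) : ZMod 4) by norm_num, ZMod.intCast_eq_intCast_iff']
      push_cast
      omega, hb0⟩⟩
  · exact ⟨⟨-a, -b, -c, neg_ne_zero.2 ha, neg_ne_zero.2 hb, neg_ne_zero.2 hc, p, pp, hp5, by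
      rw [hop.neg_pow, hop.neg_pow, hop.neg_pow, ← H]; ring, by
      rw [← Int.coe_gcd, Int.neg_gcd, Int.gcd_neg, Int.coe_gcd, hg], by
      rw [show (3 : ZMod 4) = ((3 : ℤ) : ZMod 4) by norm_num, ZMod.intCast_eq_intCast_iff']
      push_cast
      omega, by simp [hb0]⟩⟩

private theorem mk_of_coprime (a b c : ℤ) (ha : a ≠ 0) (hb : b ≠ 0) (hc : c ≠ 0) (p : ℕ)
    (pp : p.Prime) (hp5 : 5 ≤ p) (H : a ^ p + b ^ p = c ^ p) (hg : gcd a b = 1) :
    Nonempty FreyPackage := by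
  have hop : Odd p := pp.odd_of_ne_two (by omega)
  by_cases hbe : Even b
  · exact mk_of_even a b c ha hb hc p pp hp5 H hg hbe
  by_cases hae : Even a
  · exact mk_of_even b a c hb ha hc p pp hp5 (by rw [← H]; ring) (by rw [gcd_comm, hg]) hae
  have hce : Even c := by
    have h2 : Even (c ^ p) := by
      rw [← H]
      exact (Int.not_even_iff_odd.1 hae).pow.add_odd (Int.not_even_iff_odd.1 hbe).pow
    exact (Int.even_pow.1 h2).1
  refine mk_of_even a (-c) (-b) ha (neg_ne_zero.2 hc) (neg_ne_zero.2 hb) p pp hp5 ?_ ?_ hce.neg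
  · rw [hop.neg_pow, hop.neg_pow, ← H]; ring
  · rw [← Int.coe_gcd, Int.gcd_neg, Int.coe_gcd, ← FreyPackage.gcdab_eq_gcdac pp.pos H, hg]

theorem result (a b c : ℤ) (ha : a ≠ 0) (hb : b ≠ 0) (hc : c ≠ 0) (p : ℕ) (pp : p.Prime) (hp5 : 5 ≤ p) (H : a ^ p + b ^ p = c ^ p) : Nonempty FreyPackage := by
  obtain ⟨g, a', b', c', hg, hgcd, rfl, rfl, rfl⟩ :
      ∃ g a' b' c' : ℤ, g ≠ 0 ∧ gcd a' b' = 1 ∧ a = g * a' ∧ b = g * b' ∧ c = g * c' := by
    have hdvd : gcd a b ∣ c := by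
      rw [← Int.pow_dvd_pow_iff pp.ne_zero, ← H]
      exact dvd_add (pow_dvd_pow_of_dvd (gcd_dvd_left a b) p) (pow_dvd_pow_of_dvd (gcd_dvd_right a b) p)
    obtain ⟨a', ha'⟩ := gcd_dvd_left a b
    obtain ⟨b', hb'⟩ := gcd_dvd_right a b
    obtain ⟨c', hc'⟩ := hdvd
    have hg0 : gcd a b ≠ 0 := by
      intro h0
      exact ha ((gcd_eq_zero_iff a b).1 h0).1
    refine ⟨gcd a b, a', b', c', hg0, ?_, ha', hb', hc'⟩
    have h := gcd_mul_left (gcd a b) a' b'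
    rw [← ha', ← hb', normalize_gcd] at h
    exact mul_left_cancel₀ hg0 (by rw [← h, mul_one])
  simp only [mul_pow, ← mul_add] at H
  exact mk_of_coprime a' b' c' (fun h => ha (by simp [h])) (fun h => hb (by simp [h]))
    (fun h => hc (by simp [h])) p pp hp5 (mul_left_cancel₀ (pow_ne_zero p hg) H) hgcd

end Fermat.Agent.S02
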