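import Fermat.Statements.S09
import Fermat.Agent.Mazur3.Irreducible
import Fermat.Agent.Mazur3.SameBranchFull

set_option autoImplicit false
open WeierstrassCurve WeierstrassCurve.Affine WeierstrassCurve.Affine.Point
open CuspForm ModularFormClass UpperHalfPlane
open FreyPackage

namespace Fermat.Agent.S09

theorem result (P : FreyPackage) : GaloisRepIsIrreducible (K := AlgebraicClosure ℚ) ℚ P.freyCurve P.p := by
  refine Fermat.Agent.Mazur3.frey_irreducible_of_sameBranch P fun hp => ?_
  haveI : NeZero P.p := ⟨P.pp.ne_zero⟩
  exact Fermat.Agent.Mazur3.same_branch P.pp (by simp only [Finset.mem_insert, Finset.mem_singleton]; omega)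

end Fermat.Agent.S09
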