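import Fermat.Statements.S10
import Fermat.Agent.Mazur.Five
import Fermat.Agent.Mazur.Thirteen
import Fermat.Agent.Mazur.Seven
import Fermat.Agent.Mazur.FreySquare

set_option autoImplicit false
open WeierstrassCurve WeierstrassCurve.Affine WeierstrassCurve.Affine.Point
open CuspForm ModularFormClass UpperHalfPlane
open FreyPackage

namespace Fermat.Agent.S10

theorem result (P : FreyPackage) (hp : P.p = 5 ∨ P.p = 7 ∨ P.p = 13) : ¬ HasGaloisStableCofixedLine (K := AlgebraicClosure ℚ) ℚ P.freyCurve P.p := by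
  rcases hp with hp | hp | hp
  · rw [hp]
    rintro ⟨N, hN, hb, ht, -⟩
    obtain ⟨q, hq⟩ := Fermat.Agent.Mazur.stable_line_five P.freyCurve
      (Fermat.Agent.Mazur.freyCurve_delta_ne_zero P) hN hb ht
    exact Fermat.Agent.Mazur.freyCurve_j_not_five P q hq
  · exact (Fermat.Agent.Mazur.no_seventh_powers P.ha0 P.hb0 P.hc0 (hp ▸ P.hFLT)).elim
  · rw [hp]
    rintro ⟨N, hN, hb, ht, -⟩
    obtain ⟨q, hq⟩ := Fermat.Agent.Mazur.stable_line_thirteen P.freyCurve
      (Fermat.Agent.Mazur.freyCurve_delta_ne_zero P) hN hb ht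
    exact Fermat.Agent.Mazur.freyCurve_j_not_thirteen P q hq

end Fermat.Agent.S10
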