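import Fermat.Statements.S14
import Fermat.Agent.ExtVanish.Kummer

set_option autoImplicit false
open ExtCitation

namespace Fermat.Agent.S14

theorem result {p : ℕ} [Fact p.Prime] (h3 : 3 ≤ p) :
    ExtCitation.ExtVanishingCts p := by
  classical
  intro V _ _ _ _ C hadm
  have hpp : p.Prime := Fact.out
  haveI : NeZero p := ⟨hpp.ne_zero⟩
  -- a basis adapted to `C`
  haveI : Finite V := Nat.finite_of_card_ne_zero (by rw [hadm.card_total]; exact pow_ne_zero _ hpp.ne_zero)
  obtain ⟨c₀, hc₀C, hc₀⟩ : ∃ c ∈ C, c ≠ (0 : V) := by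
    by_contra h
    push Not at h
    have hbot : C = ⊥ := (Submodule.eq_bot_iff C).2 h
    have := hadm.card_sub
    rw [hbot, Nat.card_unique] at this
    exact hpp.one_lt.ne this
  have hspan : ∀ x ∈ C, ∃ t : ZMod p, x = t • c₀ := by
    intro x hx
    have hf : Function.Injective (fun t : ZMod p => (⟨t • c₀, C.smul_mem t hc₀C⟩ : C)) :=
      fun s t hst => smul_left_injective (ZMod p) hc₀ (congrArg Subtype.val hst)
    have hbij := (Nat.bijective_iff_injective_and_card _).2 ⟨hf, by rw [Nat.card_zmod, hadm.card_sub]⟩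
    obtain ⟨t, ht⟩ := hbij.surjective ⟨x, hx⟩
    exact ⟨t, (congrArg Subtype.val ht).symm⟩
  obtain ⟨v₀, hv₀⟩ : ∃ v₀ : V, v₀ ∉ C := by
    by_contra h
    push Not at h
    have h1 : Nat.card C = Nat.card V :=
      Nat.card_congr ⟨Subtype.val, fun v => ⟨v, h v⟩, fun _ => rfl, fun _ => rfl⟩
    rw [hadm.card_sub, hadm.card_total] at h1
    have := Nat.pow_right_injective hpp.two_le (show p ^ 1 = p ^ 2 by rw [pow_one]; exact h1)
    omega
  set ω : (AlgebraicClosure ℚ ≃ₐ[ℚ] AlgebraicClosure ℚ) → ZMod p :=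
    fun σ => (ExtCitation.cycloChar p σ : ZMod p) with hω
  have hex : ∀ σ : AlgebraicClosure ℚ ≃ₐ[ℚ] AlgebraicClosure ℚ, ∃ t : ZMod p,
      σ • v₀ = ω σ • v₀ + t • c₀ := fun σ => by
    obtain ⟨t, ht⟩ := hspan _ (hadm.cyclo_quot σ v₀)
    rw [← ExtCitation.coe_cycloChar] at ht
    exact ⟨t, by rw [← ht, hω]; abel⟩
  choose a ha using hex
  have hc : ∀ σ : AlgebraicClosure ℚ ≃ₐ[ℚ] AlgebraicClosure ℚ, σ • c₀ = c₀ :=
    fun σ => hadm.fixed_sub σ c₀ hc₀C
  have hcoord : ∀ {s s' t t' : ZMod p}, s • v₀ + t • c₀ = s' • v₀ + t' • c₀ → s = s' ∧ t = t' := by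
    intro s s' t t' h
    have h1 : (s - s') • v₀ = (t' - t) • c₀ := by
      rw [sub_smul, sub_smul, sub_eq_sub_iff_add_eq_add, h]
      abel
    have hs : s - s' = 0 := by
      by_contra hne
      apply hv₀
      have : v₀ = ((s - s')⁻¹ * (t' - t)) • c₀ := by
        rw [mul_smul, ← h1, smul_smul, inv_mul_cancel₀ hne, one_smul]
      rw [this]
      exact C.smul_mem _ hc₀C
    rw [hs, zero_smul, eq_comm, smul_eq_zero, or_iff_left hc₀, sub_eq_zero] at h1
    exact ⟨sub_eq_zero.1 hs, h1.symm⟩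
  have hωmul : ∀ σ τ, ω (σ * τ) = ω σ * ω τ := fun σ τ => by simp [hω]
  have hmul : ∀ σ τ, a (σ * τ) = (ExtCitation.cycloChar p τ : ZMod p) * a σ + a τ := by
    intro σ τ
    have h := ha (σ * τ)
    rw [mul_smul, ha τ, smul_add, smul_comm σ, smul_comm σ, hc, ha σ, smul_add, smul_smul, smul_smul,
      add_assoc, ← add_smul, hωmul, mul_comm (ω σ)] at h
    exact (hcoord h).2.symm
  -- stable complement from an affine solution
  suffices hsol : ∃ t : ZMod p, ∀ σ, a σ = t * (ω σ - 1) by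
    obtain ⟨t, ht⟩ := hsol
    refine ⟨Submodule.span (ZMod p) {v₀ + t • c₀}, fun σ x hx => ?_, ?_⟩
    · obtain ⟨s, rfl⟩ := Submodule.mem_span_singleton.1 hx
      refine Submodule.mem_span_singleton.2 ⟨s * ω σ, ?_⟩
      have e : σ • (v₀ + t • c₀) = ω σ • (v₀ + t • c₀) := by
        rw [smul_add, smul_comm σ, hc, ha, ht, smul_add, smul_smul, add_assoc, ← add_smul]
        ring_nf
      rw [smul_comm σ, e, mul_smul]
    · constructor
      · rw [Submodule.disjoint_def]
        intro x hx hx'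
        obtain ⟨s, rfl⟩ := Submodule.mem_span_singleton.1 hx'
        obtain ⟨r, hr⟩ := hspan _ hx
        rw [smul_add, smul_smul] at hr
        have := (hcoord (hr.trans (by rw [zero_smul, zero_add] :
          r • c₀ = (0 : ZMod p) • v₀ + r • c₀))).1
        rw [this, zero_smul]
      · rw [codisjoint_iff, eq_top_iff]
        intro x _
        have hf : Function.Injective (fun st : ZMod p × ZMod p => st.1 • v₀ + st.2 • c₀) :=
          fun u v h => Prod.ext (hcoord h).1 (hcoord h).2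
        have hbij := (Nat.bijective_iff_injective_and_card _).2 ⟨hf, by
          rw [Nat.card_prod, Nat.card_zmod, hadm.card_total, pow_two]⟩
        obtain ⟨⟨s, r⟩, rfl⟩ := hbij.surjective x
        refine Submodule.mem_sup.2 ⟨(r - s * t) • c₀, C.smul_mem _ hc₀C, s • (v₀ + t • c₀),
          Submodule.mem_span_singleton.2 ⟨s, rfl⟩, ?_⟩
        rw [smul_add, smul_smul, sub_smul]
        abel
  have hzero : ∀ σ, ExtCitation.cycloChar p σ = 1 → a σ = 0 := by
    refine Fermat.Agent.ExtVanish.cocycle_eq_zero h3 hmul hadm.open_kernel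
      (fun v => one_smul _ v) (fun σ hσ => ?_) (fun ℓ hℓ A hA σ hσ hσ1 => ?_)
    · have h := ha σ
      rw [hσ v₀] at h
      exact ((hcoord ((by rw [one_smul, zero_smul, add_zero] : (1 : ZMod p) • v₀ + (0 : ZMod p) • c₀ = v₀).trans h)).2).symm
    · have hω1 : ω σ = 1 := by simp [hω, hσ1]
      have h := ha σ
      rw [hω1, one_smul] at h
      by_cases hℓp : ℓ = p
      · subst hℓp
        obtain ⟨C', hC', hcompl⟩ := hadm.locally_split A hA
        obtain ⟨⟨σ', hσ'⟩, -, hσeq⟩ := hσ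
        have hdec : σ ∈ A.decompositionSubgroup ℚ := hσeq ▸ hσ'
        obtain ⟨c, hcC, c', hc'C, hcc⟩ := Submodule.mem_sup.1
          (hcompl.sup_eq_top ▸ (Submodule.mem_top : v₀ ∈ ⊤))
        have h1 : σ • c' - c' ∈ C' := sub_mem (hC' σ hdec c' hc'C) hc'C
        have h2 : σ • c' - c' = a σ • c₀ := by
          rw [show c' = v₀ - c from eq_sub_of_add_eq' hcc, smul_sub, hadm.fixed_sub σ c hcC, h]
          abel
        rw [h2] at h1
        have h3 : a σ • c₀ = 0 :=
          Submodule.disjoint_def.1 hcompl.disjoint _ (C.smul_mem _ hc₀C) h1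
        exact (smul_eq_zero.1 h3).resolve_right hc₀
      · rw [hadm.unramified_outside ℓ hℓ hℓp A hA σ hσ v₀, left_eq_add] at h
        exact (smul_eq_zero.1 h).resolve_right hc₀
  by_cases hall : ∀ σ, ω σ = 1
  · exact ⟨0, fun σ => by rw [zero_mul]; exact hzero σ (Units.ext (hall σ))⟩
  push Not at hall
  obtain ⟨τ, hτ⟩ := hall
  refine ⟨a τ / (ω τ - 1), fun σ => ?_⟩
  have hcomm : a (σ * τ) = a (τ * σ) := by
    set k := (τ * σ)⁻¹ * (σ * τ) with hk
    have hk1 : ExtCitation.cycloChar p k = 1 := by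
      rw [hk]
      simp only [map_mul, map_inv]
      rw [mul_comm (ExtCitation.cycloChar p σ) (ExtCitation.cycloChar p τ), inv_mul_cancel]
    rw [show σ * τ = τ * σ * k by rw [hk, mul_inv_cancel_left], hmul, hk1, hzero k hk1, Units.val_one,
      one_mul, add_zero]
  rw [hmul, hmul] at hcomm
  rw [div_mul_eq_mul_div, eq_div_iff (sub_ne_zero.2 hτ)]
  simp only [hω]
  linear_combination hcomm

end Fermat.Agent.S14
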