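import Fermat.Statements.S16
import Fermat.Agent.Eisenstein.Congruence
import Fermat.Agent.Eisenstein.Transfer
import Fermat.Agent.Eisenstein.IndexGen
import Fermat.Agent.Hecke.IntegralBasis

/-!
# The index of the Eisenstein ideal
-/

set_option autoImplicit false
open ModularCurve CuspForm
open ModularCurve

namespace Fermat.Agent.S16

theorem result
    (p : ℕ) [Fact p.Prime] :
    Nat.card (↥(heckeLatticeAlgebra p ∅) ⧸
        Ideal.map ((latticeRestrictHom p ∅).toRingHom.comp (heckeEvalForms p 2))
          (eisensteinIdeal p)) =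
      eisensteinNumerator p := by
  have hpos : 0 < eisensteinNumerator p :=
    Nat.div_pos (Nat.gcd_le_left _ (Nat.sub_pos_of_lt (Fact.out : p.Prime).one_lt))
      (Nat.gcd_pos_of_pos_right _ (by norm_num))
  refine Eisenstein.natCard_quotient_map_ker _ (Eisenstein.latticeEval_surjective p)
    (MvPolynomial.aeval (eisensteinSystem p)).toRingHom hpos (fun R hR => ?_)
    (fun m _ χ hχ => ?_)
  · have h0 : heckeEvalForms p 2 R = 0 :=
      (latticeRestrictHom_bijective p (∅ : Set ℕ) (Hecke.hasIntegralStructure p 2)).1
        (hR.trans (map_zero _).symm)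
    exact Eisenstein.eisensteinNumerator_dvd_of_kills p R (by
      rw [Eisenstein.actQ, h0]; rfl)
  · refine Eisenstein.dvd_numerator_of_char p χ fun l => ?_
    rw [Eisenstein.latticeGen, hχ]
    simp

end Fermat.Agent.S16
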