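import Fermat.Statements.S25
import Fermat.Agent.Jac.FromCurve
import Fermat.Agent.Jac.Scheme
import Fermat.Agent.Jac.Proper
import Fermat.Agent.Jac.Cut

set_option autoImplicit false
set_option autoImplicit false
universe u
open CategoryTheory CategoryTheory.Limits AlgebraicGeometry AlgebraicGeometry.RelPicard NeronModelInfra
  GoodReductionJacobian
open AlgebraicGeometry AlgebraicGeometry.RelPicard

namespace Fermat.Agent.S25

theorem result
    (k : Type u) [Field k] [IsAlgClosed k] {C : Scheme.{u}} (c : C ⟶ Spec (CommRingCat.of k))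
    [IsProper c] [SmoothOfRelativeDimension 1 c] [IsIntegral C]
    (ε : SchemeHomOver (𝟙 (Spec (CommRingCat.of k))) c) :
    ∃ D : RelativePic0Designation k c,
      Nonempty (RepresentsRelSubPic c ε (algEquivZeroCut c ε) D) ∧
        Smooth D.toBase ∧ IsProper D.toBase ∧ GeometricallyConnected D.toBase := by
  obtain ⟨M⟩ := Fermat.Agent.Jac.exists_curveModel k c ε
  obtain ⟨J, hs, hq⟩ := M.exists_picData
  have hp := J.isProper
  have hi := J.geometricallyIntegral
  have hlft : LocallyOfFiniteType J.D.toBase := inferInstance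
  refine ⟨J.D, ⟨⟨J.P, M.fibrewiseAlgEquivZero_of_degFibrewise J J.P J.degFibrewise, ?_, J.zero⟩⟩,
    hs, hp, J.geometricallyConnected⟩
  intro T t L hL
  exact J.univ t L (M.degFibrewise_of_fibrewiseAlgEquivZero L hL)

end Fermat.Agent.S25
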