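import Fermat.Statements.S26
import Fermat.Agent.AbVar.SchemeModel
import Fermat.Agent.AbVar.Growth
import Fermat.Agent.AbVar.Quadratic

set_option autoImplicit false
open CategoryTheory CategoryTheory.Limits AlgebraicGeometry NeronModelInfra GoodReductionJacobian
universe u

namespace Fermat.Agent.S26

theorem result
    (K : Type u) [Field K] [IsAlgClosed K] {A : Scheme.{u}} (f : A ⟶ Spec (CommRingCat.of K))
    (L : RelativeGroupLaw K f) (hc : L.IsCommutative) (hA : AbelianSchemePropertyBundle K f)
    (g : ℕ) [SmoothOfRelativeDimension g f] (n : ℕ) (hn : (n : K) ≠ 0) :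
    Nat.card {x : SchemeHomOver (𝟙 (Spec (CommRingCat.of K))) f //
        L.IsTorsionPoint (𝟙 (Spec (CommRingCat.of K))) n x} = n ^ (2 * g) := by
  obtain ⟨M, rfl, hd, hcard⟩ := Fermat.Agent.AbVar.exists_model K f L hc hA g
  rw [hcard]
  exact Fermat.Agent.AbVar.natCard_torsion M (Fermat.Agent.AbVar.isQuadratic M) hd n hn

end Fermat.Agent.S26
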