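import Fermat.Statements.S37
import Fermat.Agent.MCurve.Spec.Specialization
import Fermat.Agent.MCurve.Spec.Congruence

set_option autoImplicit false
open ModularCurve

namespace Fermat.Agent.S37

set_option maxHeartbeats 2000000 in
set_option synthInstance.maxHeartbeats 400000 in
theorem result (N p : ℕ) [NeZero N] (hcomm : ModularCurve.HeckeOperatorsCommuteBar N) : letI := ModularCurve.heckeModuleBar N; ∀ (_ : SMulCommClass (AlgebraicClosure ℚ ≃ₐ[ℚ] AlgebraicClosure ℚ) ModularCurve.HeckeAlg (ModularCurve.JZero N)), ModularCurve.SpecializationExists (K := ℚ) (L := AlgebraicClosure ℚ) N p (ModularCurve.JZero N) := by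
  haveI := Fermat.Agent.MCurve.Spec.finite_residue N
  exact Fermat.Agent.MCurve.Spec.specializationExists p hcomm
    (fun ℓ _ A h1 h2 _ τ hτ P => Fermat.Agent.MCurve.Spec.cen_inertia N h1 h2 hτ P)
    (fun ℓ _ _ A h1 h2 _ _ hα hβ σ hσ P =>
      Fermat.Agent.MCurve.Spec.cen_correspondence N hα hβ h1 h2 hσ P)

end Fermat.Agent.S37
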