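import Fermat.Statements.S41
import Fermat.Agent.Raise.Galois
import Fermat.Agent.Raise.EigenClass
import Fermat.Agent.Raise.Lattice
import Fermat.Agent.Raise.Periods

set_option autoImplicit false
set_option linter.style.haveILetI false
open WeierstrassCurve WeierstrassCurve.Affine WeierstrassCurve.Affine.Point
open scoped CongruenceSubgroup
open WeierstrassCurve

namespace Fermat.Agent.S41

open Fermat.Agent.GalRep (GoodIndex GoodPrime)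

theorem result
    (E : WeierstrassCurve ℚ) [E.IsElliptic] {W : WeierstrassCurve ℤ} (hW : W.IsIntegralModelOf E)
    {p N q' : ℕ} (hp : p.Prime) (hp2 : p ≠ 2) (hN : 0 < N) (hq' : q'.Prime) (hq'N : ¬ q' ∣ N) (hq'p : q' ≠ p)
    (hirr : GaloisRepIsIrreducible (K := AlgebraicClosure ℚ) ℚ E p)
    (f : CuspForm (CongruenceSubgroup.Gamma0 N) 2) (𝔪 : Ideal (integralClosure ℤ ℂ))
    (hf : f.IsNormalizedEigenform) (hmax : 𝔪.IsMaximal) (hpm : (p : integralClosure ℤ ℂ) ∈ 𝔪)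
    (hcong : ∀ ℓ : ℕ, ℓ.Prime → W.IsGoodPrimeFor ℓ → ¬ ℓ ∣ N → ℓ ≠ p →
      ∃ a : integralClosure ℤ ℂ, (a : ℂ) = ModularFormClass.qCoeff f ℓ ∧
        a - ((W.apOfModel ℓ : ℤ) : integralClosure ℤ ℂ) ∈ 𝔪)
    (hLR : ∃ a : integralClosure ℤ ℂ, (a : ℂ) = ModularFormClass.qCoeff f q' ∧
      a ^ 2 - ((q' : integralClosure ℤ ℂ) + 1) ^ 2 ∈ 𝔪) :
    ∃ (g : CuspForm (CongruenceSubgroup.Gamma0 (N * q')) 2) (𝔪' : Ideal (integralClosure ℤ ℂ)),
      g.IsNormalizedEigenform ∧ 𝔪'.IsMaximal ∧ (p : integralClosure ℤ ℂ) ∈ 𝔪' ∧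
      (∀ ℓ : ℕ, ℓ.Prime → W.IsGoodPrimeFor ℓ → ¬ ℓ ∣ N * q' → ℓ ≠ p →
        ∃ a : integralClosure ℤ ℂ, (a : ℂ) = ModularFormClass.qCoeff g ℓ ∧
          a - ((W.apOfModel ℓ : ℤ) : integralClosure ℤ ℂ) ∈ 𝔪') ∧
      g.IsNewAt q' := by
  classical
  haveI := Fact.mk hp
  haveI : NeZero N := ⟨hN.ne'⟩
  haveI : NeZero (N * q') := ⟨mul_ne_zero hN.ne' hq'.ne_zero⟩
  obtain ⟨D⟩ := Raise.exists_levData hq' hq'N
  let ι := {ℓ : Nat.Primes // ¬ (ℓ : ℕ) ∣ N * q' ∧ W.IsGoodPrimeFor ℓ ∧ (ℓ : ℕ) ≠ p}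
  let l : ι → ℕ := fun i => (i.1 : ℕ)
  have hM : ∀ i, GoodIndex (N * q') (l i) := fun i => ⟨i.1.2, i.2.1⟩
  have hNi : ∀ i, GoodIndex N (l i) := fun i =>
    ⟨i.1.2, fun h => i.2.1 (h.trans (dvd_mul_right N q'))⟩
  -- the sign at `q'`
  obtain ⟨aq, haq, hsq⟩ := hLR
  obtain ⟨ε, hε, hεq⟩ : ∃ ε : ℤ, ε * ε = 1 ∧
      aq - ((ε * ((q' : ℤ) + 1) : ℤ) : integralClosure ℤ ℂ) ∈ 𝔪 := by
    rw [sq_sub_sq] at hsq
    rcases hmax.isPrime.mem_or_mem hsq with h | h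
    · exact ⟨-1, rfl, by push_cast; simpa [sub_eq_add_neg] using h⟩
    · exact ⟨1, rfl, by push_cast; simpa using h⟩
  -- the eigenclass modulo `p`
  obtain ⟨y, hy0, hy⟩ := Raise.exists_eigen_class (p := p) hf hmax hpm
  have heig := fun i : ι => congrArg Subtype.val
    (hy ⟨i.1, (hNi i).not_dvd⟩ (W.apOfModel (l i))
      (hcong _ i.1.2 i.2.2.1 (hNi i).not_dvd i.2.2.2))
  have heigq := congrArg Subtype.val
    (hy ⟨⟨q', hq'⟩, hq'N⟩ (ε * ((q' : ℤ) + 1)) ⟨aq, haq, hεq⟩)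
  -- the auxiliary primes
  have hK : q' ^ (4 * N ^ 2) - 1 ≠ 0 := by
    have : 1 < q' ^ (4 * N ^ 2) := Nat.one_lt_pow (by positivity) hq'.one_lt
    omega
  obtain ⟨lA, hlA, hAS, hAgood, hAp, hA⟩ := Raise.exists_prime_not_sign E hW p hp2 hirr
    ((N * q').primeFactors ∪ (q' ^ (4 * N ^ 2) - 1).primeFactors)
  simp only [Finset.mem_union, Nat.mem_primeFactors, not_or, not_and] at hAS
  obtain ⟨lB, hlB, hBS, hBgood, hBp, hB1, hB⟩ := Raise.exists_prime_nonEis E hW p hp2 hirr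
    (N * q') (N * q').primeFactors
  simp only [Nat.mem_primeFactors, not_and] at hBS
  let iA : ι := ⟨⟨lA, hlA⟩, fun h => hAS.1 hlA h (NeZero.ne _), hAgood, hAp⟩
  let iB : ι := ⟨⟨lB, hlB⟩, fun h => hBS hlB h (NeZero.ne _), hBgood, hBp⟩
  have hAbad : ¬ (l iA : ℤ) ∣ (q' : ℤ) ^ (4 * N ^ 2) - 1 := fun h => hAS.2 hlA (by
    have e : (q' : ℤ) ^ (4 * N ^ 2) - 1 = ((q' ^ (4 * N ^ 2) - 1 : ℕ) : ℤ) := by
      rw [Nat.cast_sub (Nat.one_le_pow _ _ hq'.pos)]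
      push_cast
      rfl
    rw [e] at h
    exact Int.natCast_dvd_natCast.mp h) hK
  have hB1' : ((N * q' : ℕ) : ℤ) ∣ (l iB : ℤ) - 1 := by
    rw [← ZMod.intCast_zmod_eq_zero_iff_dvd]
    push_cast
    rw [show ((l iB : ℕ) : ZMod (N * q')) = 1 from hB1, sub_self]
  have hBne : ((W.apOfModel (l iB) - ((l iB : ℤ) + 1) : ℤ) : ZMod p) ≠ 0 := by
    push_cast
    exact sub_ne_zero.mpr hB
  obtain ⟨v, hv, hv0, hU, lam, hT, hlam⟩ := D.exists_kernel_class hp2 hq'p hM hNi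
    (fun i => W.apOfModel (l i)) hε y hy0 heig heigq iA hAbad hA iB hB1' hBne
  obtain ⟨g, hg, hgq, hgl, -⟩ := D.exists_eigenform_of_class l hM lam hv hv0 hU hT
  obtain ⟨χ, hχ⟩ := GalRep.exists_eigenCharacter hg (∅ : Set ℕ)
  let Λ₀ : ι → integralClosure ℤ ℂ := fun i =>
    χ (CuspForm.heckeAlgebra.T (hM i).prime (hM i).not_dvd (Set.notMem_empty _))
  have hΛ₀ : ∀ i, (Λ₀ i : ℂ) = lam i := fun i => (hχ _ _ _ _).trans (hgl i)
  let Λ : MvPolynomial ι ℤ →+* integralClosure ℤ ℂ :=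
    MvPolynomial.eval₂Hom (Int.castRingHom _) Λ₀
  let abar : MvPolynomial ι ℤ →+* ZMod p :=
    MvPolynomial.eval₂Hom (Int.castRingHom (ZMod p)) fun i => (W.apOfModel (l i) : ZMod p)
  haveI hmax' : (RingHom.ker abar).IsMaximal :=
    RingHom.ker_isMaximal_of_surjective abar fun z => by
      obtain ⟨k, rfl⟩ := ZMod.intCast_surjective z
      exact ⟨k, map_intCast abar k⟩
  letI : Algebra (MvPolynomial ι ℤ) (integralClosure ℤ ℂ) := Λ.toAlgebra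
  haveI : IsScalarTower ℤ (MvPolynomial ι ℤ) (integralClosure ℤ ℂ) :=
    IsScalarTower.of_algebraMap_eq' (RingHom.ext_int _ _)
  haveI : Algebra.IsIntegral (MvPolynomial ι ℤ) (integralClosure ℤ ℂ) := ⟨fun x =>
    (Algebra.IsIntegral.isIntegral (R := ℤ) x).tower_top⟩
  have hker : RingHom.ker (algebraMap (MvPolynomial ι ℤ) (integralClosure ℤ ℂ)) ≤
      RingHom.ker abar := fun P hP => by
    refine RingHom.mem_ker.mpr (hlam P ?_)
    have e : MvPolynomial.eval₂Hom (Int.castRingHom ℂ) lam =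
        (integralClosure ℤ ℂ).val.toRingHom.comp Λ :=
      MvPolynomial.ringHom_ext (fun r => by simp [Λ]) (fun i => by simp [Λ, hΛ₀])
    show MvPolynomial.eval₂Hom (Int.castRingHom ℂ) lam P = 0
    rw [e, RingHom.comp_apply, show Λ P = 0 from RingHom.mem_ker.mp hP, _root_.map_zero]
  obtain ⟨Q, hQ, hQc⟩ := Ideal.exists_ideal_over_maximal_of_isIntegral (RingHom.ker abar) hker
  have hQmem : ∀ P, abar P = 0 → Λ P ∈ Q := fun P hP => by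
    have h1 : P ∈ Q.comap (algebraMap (MvPolynomial ι ℤ) (integralClosure ℤ ℂ)) :=
      hQc ▸ RingHom.mem_ker.mpr hP
    exact h1
  refine ⟨g, Q, hg, hQ, ?_, fun ℓ hℓ hgood hℓM hℓp => ?_, hgq⟩
  · simpa using hQmem (p : MvPolynomial ι ℤ) (by simp)
  · let i : ι := ⟨⟨ℓ, hℓ⟩, hℓM, hgood, hℓp⟩
    refine ⟨Λ₀ i, (hΛ₀ i).trans (hgl i).symm, ?_⟩
    have h := hQmem (MvPolynomial.X i - (W.apOfModel ℓ : MvPolynomial ι ℤ))
      (by rw [_root_.map_sub, map_intCast]; simp [abar, l, i])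
    rw [_root_.map_sub, map_intCast] at h
    simpa [Λ] using h

end Fermat.Agent.S41
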