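import Fermat.Statements.S43
import Fermat.Agent.S44
import Fermat.Agent.LL.Main

set_option autoImplicit false
open WeierstrassCurve WeierstrassCurve.Affine WeierstrassCurve.Affine.Point
open CuspForm ModularFormClass UpperHalfPlane
open FreyPackage

namespace Fermat.Agent.S43

theorem result (P : FreyPackage) {N q : ℕ} (hcond : P.IsConductorLevel N) (hq : q.Prime) (hq2 : q ≠ 2) (hqp : q ≠ P.p) (hqN : q ∣ N) (hirr : GaloisRepIsIrreducible (K := AlgebraicClosure ℚ) ℚ P.freyCurve P.p) (hmod : P.ModularRepOfLevel N) (hunr : P.GaloisRepUnramifiedAt q) : ∃ M : ℕ, M ∣ N ∧ ¬ q ∣ M ∧ P.ModularRepOfLevel M := by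
  haveI : NeZero N := ⟨hcond.pos.ne'⟩
  by_cases hpN : P.p ∣ N
  · obtain ⟨M, hMN, hpM, hM⟩ := Fermat.Agent.S44.result P hcond hpN hirr hmod
    by_cases hqM : q ∣ M
    · have hM0 : 0 < M := Nat.pos_of_dvd_of_pos hMN hcond.pos
      obtain ⟨M', hM'M, hqM', hM'⟩ :=
        Fermat.Agent.LL.exists_lower_prime P hq hq2 hirr M (hcond.of_dvd hMN hM0) hpM hM hqM
      exact ⟨M', hM'M.trans hMN, hqM', hM'⟩
    · exact ⟨M, hMN, hqM, hM⟩
  · exact Fermat.Agent.LL.exists_lower_prime P hq hq2 hirr N hcond hpN hmod hqN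

end Fermat.Agent.S43
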