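import Fermat.Statements.S48
import Fermat.Agent.DS.Glue

set_option autoImplicit false
set_option autoImplicit false
open CongruenceSubgroup
open scoped MatrixGroups
local notation "Γℚ" => (AlgebraicClosure ℚ ≃ₐ[ℚ] AlgebraicClosure ℚ)
open DeligneSerre

namespace Fermat.Agent.S48

theorem result
    (N : ℕ) [NeZero N] (ε : DirichletCharacter ℂ N) (f : CuspForm (Gamma1 N) 1)
    (hf₁ : ModularFormClass.qCoeff f 1 = 1)
    (hT : ∀ p : ℕ, p.Prime → ¬ p ∣ N → ∀ n : ℕ,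
        ModularFormClass.qCoeff f (p * n) +
            ε (p : ZMod N) * (if p ∣ n then ModularFormClass.qCoeff f (n / p) else 0) =
          ModularFormClass.qCoeff f p * ModularFormClass.qCoeff f n) :
    ∃ ρ : Γℚ →* GL (Fin 2) ℂ, GaloisFactorsThroughFiniteLevel ρ ∧
      (Deformation.matrixRepresentation ρ).IsIrreducible ∧
      ∀ p : ℕ, p.Prime → ¬ p ∣ N →
        ∀ A : ValuationSubring (AlgebraicClosure ℚ), A.LiesOverPrime p →
          (∀ σ ∈ A.inertiaSubgroupIn ℚ, ρ σ = 1) ∧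
          ∀ σ : Γℚ, A.IsFrobeniusAt σ p →
            ((ρ σ : GL (Fin 2) ℂ) : Matrix (Fin 2) (Fin 2) ℂ).trace = ModularFormClass.qCoeff f p ∧
            ((ρ σ : GL (Fin 2) ℂ) : Matrix (Fin 2) (Fin 2) ℂ).det = ε (p : ZMod N) := by
  classical
  obtain ⟨f₀, D, hf₀1, hT₀, hap, halg⟩ := Fermat.Agent.DS.exists_algebraic_eigenform ε f hf₁ hT
  obtain ⟨L₁, hL₁⟩ := Fermat.Agent.DS.exists_complex_rep hf₀1 hT₀ halg
  obtain ⟨ℓ, hℓge, hℓ⟩ := Nat.exists_infinite_primes (L₁ + N + 1)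
  obtain ⟨ℓ', hℓ'ge, hℓ'⟩ := Nat.exists_infinite_primes (L₁ + ℓ + 1)
  obtain ⟨ρ, hρfin, hρirr, -, hρ⟩ := hL₁ hℓ (by omega)
  obtain ⟨ρ', hρ'fin, -, -, hρ'⟩ := hL₁ hℓ' (by omega)
  have htd : ∀ g, Fermat.Agent.DS.trDet (ρ g) = Fermat.Agent.DS.trDet (ρ' g) := by
    refine Fermat.Agent.DS.trDet_eq hρfin hρ'fin (N * ℓ * ℓ').primeFactors
      fun p hp hpb A hA σ hσ => ?_
    have hN0 : N * ℓ * ℓ' ≠ 0 :=
      Nat.mul_ne_zero (Nat.mul_ne_zero (NeZero.ne N) hℓ.ne_zero) hℓ'.ne_zero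
    have h1 : ¬ p ∣ N * ℓ := fun h =>
      hpb (Nat.mem_primeFactors.2 ⟨hp, h.mul_right ℓ', hN0⟩)
    have h2 : ¬ p ∣ N * ℓ' := fun h => hpb (Nat.mem_primeFactors.2
      ⟨hp, h.trans (by rw [mul_comm N ℓ, mul_assoc]; exact dvd_mul_left _ _), hN0⟩)
    obtain ⟨a1, a2⟩ := (hρ p hp h1 A hA).2 σ hσ
    obtain ⟨b1, b2⟩ := (hρ' p hp h2 A hA).2 σ hσ
    exact Prod.ext (a1.trans b1.symm) (a2.trans b2.symm)
  refine ⟨ρ, hρfin, Fermat.Agent.DS.isIrreducible_of_no_stable_line ρ hρirr,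
    fun p hp hpN A hA => ?_⟩
  rw [← hap p hp hpN]
  by_cases hpℓ : p = ℓ
  · have hpM : ¬ p ∣ N * ℓ' := fun h => (hp.dvd_mul.1 h).elim hpN fun h' => by
      have := (Nat.prime_dvd_prime_iff_eq hp hℓ').1 h'
      omega
    obtain ⟨hI, hF⟩ := hρ' p hp hpM A hA
    refine ⟨fun σ hσ => ?_, fun σ hσ => ?_⟩
    · have h := htd σ
      rw [hI σ hσ] at h
      refine Fermat.Agent.DS.eq_one_of_trace_det ?_ ((congrArg Prod.fst h).trans ?_)
        ((congrArg Prod.snd h).trans ?_)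
      · obtain ⟨F, _, _, π, hπ⟩ := Fermat.Agent.DS.exists_finite_galois hρfin
        rw [hπ]
        exact π.isOfFinOrder (isOfFinOrder_of_finite _)
      · simp [Fermat.Agent.DS.trDet, Matrix.trace_one]
      · simp [Fermat.Agent.DS.trDet]
    · obtain ⟨b1, b2⟩ := hF σ hσ
      exact ⟨(congrArg Prod.fst (htd σ)).trans b1, (congrArg Prod.snd (htd σ)).trans b2⟩
  · have hpM : ¬ p ∣ N * ℓ := fun h => (hp.dvd_mul.1 h).elim hpN fun h' =>
      hpℓ ((Nat.prime_dvd_prime_iff_eq hp hℓ).1 h')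
    exact hρ p hp hpM A hA

end Fermat.Agent.S48
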