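import Fermat.Statements.S51
import Fermat.Agent.X15.Main
import Fermat.Agent.EC.Torsion

set_option autoImplicit false
open WeierstrassCurve WeierstrassCurve.Affine WeierstrassCurve.Affine.Point
open CuspForm ModularFormClass UpperHalfPlane
open WeierstrassCurve

namespace Fermat.Agent.S51

theorem result (W : WeierstrassCurve ℤ) (hΔ : W.Δ ≠ 0) (hW : W.IsSemistableModel) : W.ModRepIsIrreducible 3 ∨ W.ModRepIsIrreducible 5 := by
  have : ((W.map (Int.castRingHom ℚ))⁄(AlgebraicClosure ℚ)).IsElliptic := by
    rw [WeierstrassCurve.isElliptic_iff, isUnit_iff_ne_zero]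
    simpa [WeierstrassCurve.baseChange] using hΔ
  exact Fermat.Agent.X15.mod_three_or_five W hΔ hW
    (Fermat.Agent.EC.natCard_torsionBy _ 3 (by norm_num))
    (Fermat.Agent.EC.natCard_torsionBy _ 5 (by norm_num))

end Fermat.Agent.S51
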