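import Fermat.Statements.S54
import Fermat.Agent.Galois.Places
import Mathlib

set_option autoImplicit false
open GaloisRep GaloisRep.DeformationRingData

namespace Fermat.Agent.S54

theorem result {𝒪 : Type} [CommRing 𝒪] [IsDomain 𝒪] [IsDiscreteValuationRing 𝒪] [IsAdicComplete (IsLocalRing.maximalIdeal 𝒪) 𝒪] {ρbar : ResidualGaloisRep (IsLocalRing.ResidueField 𝒪)} {𝒟 : ∀ ⦃A : Type⦄ [CommRing A] [IsLocalRing A] [Algebra 𝒪 A], GaloisRepAdic A → Prop} (D : GaloisRep.DeformationRingData 𝒪 ρbar 𝒟) {N : ℕ} [NeZero N] {S : Set ℕ} {θ : CuspForm.heckeAlgebra N 2 S →+* IsLocalRing.ResidueField 𝒪} {T : Type} [CommRing T] [IsLocalRing T] [IsNoetherianRing T] [IsAdicComplete (IsLocalRing.maximalIdeal T) T] [Algebra 𝒪 T] [IsLocalHom (algebraMap 𝒪 T)] [Module.Finite 𝒪 T] [Module.Free 𝒪 T] (H : CuspForm.HeckeGaloisRepDatum N S 𝒪 θ T) (hS : ∀ q : ℕ, q.Prime → q ∣ N → q ∈ S) (h𝒟 : 𝒟 H.ρ) (hres : H.ρ.residual.IsEquiv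 (ρbar.baseChangeAlong (IsLocalRing.ResidueField.map (algebraMap 𝒪 T)))) : ∃ φ : D.R →ₐ[𝒪] T, Function.Surjective φ ∧ ∃ hφ : IsLocalHom (φ : D.R →+* T), (D.ρ.baseChangeAlong (φ : D.R →+* T) hφ).IsEquiv H.ρ := by
  obtain ⟨φ, ⟨hφ, he⟩, -⟩ := D.universal T H.residue_surjective H.ρ h𝒟 hres
  refine ⟨φ, ?_, hφ, he⟩
  rw [← AlgHom.range_eq_top, eq_top_iff, ← H.adjoin_range_π, Algebra.adjoin_le_iff]
  rintro _ ⟨⟨t, ht⟩, rfl⟩
  show H.π ⟨t, ht⟩ ∈ φ.range
  induction ht using Algebra.adjoin_induction with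
  | mem x hx =>
    rcases hx with ⟨ℓ, hℓ, hℓN, hℓS, rfl⟩ | ⟨q, hqN, hq, hqS, rfl⟩
    · obtain ⟨A, hA⟩ := Fermat.Agent.Galois.exists_liesOverPrime hℓ
      obtain ⟨σ, hσ⟩ := Fermat.Agent.Galois.exists_isFrobeniusAt hℓ hA
      have hcp := H.charpoly_frob ℓ hℓ hℓN hℓS A hA σ hσ
      obtain ⟨e⟩ := he
      letI : Algebra D.R T := (φ : D.R →+* T).toAlgebra
      have h1 : e.toLinearEquiv.conj ((D.ρ.baseChangeAlong (φ : D.R →+* T) hφ).ρ σ) = H.ρ.ρ σ := by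
        apply LinearMap.ext
        intro x
        rw [LinearEquiv.conj_apply_apply, e.map_apply, LinearEquiv.apply_symm_apply]
      have h2 : LinearMap.charpoly (H.ρ.ρ σ) =
          (LinearMap.charpoly (D.ρ.ρ σ)).map (φ : D.R →+* T) := by
        rw [← h1, LinearEquiv.charpoly_conj]
        exact LinearMap.charpoly_baseChange (D.ρ.ρ σ) (A := T)
      rw [h2] at hcp
      have h3 := congrArg (fun P : Polynomial T => P.coeff 1) hcp
      simp only [Polynomial.coeff_map, Polynomial.coeff_add, Polynomial.coeff_sub,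
        Polynomial.coeff_X_pow, Polynomial.coeff_C_mul_X, Polynomial.coeff_C] at h3
      norm_num at h3
      exact ⟨-((LinearMap.charpoly (D.ρ.ρ σ)).coeff 1), by
        rw [map_neg]
        exact (congrArg Neg.neg h3).trans (neg_neg _)⟩
    · exact absurd (hS q hq hqN) hqS
  | algebraMap r =>
    exact ⟨(r : D.R), by
      rw [map_intCast]
      exact (map_intCast H.π r).symm⟩
  | add x y hx hy ihx ihy =>
    have := H.π.map_add ⟨x, hx⟩ ⟨y, hy⟩
    exact this ▸ add_mem ihx ihy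
  | mul x y hx hy ihx ihy =>
    have := H.π.map_mul ⟨x, hx⟩ ⟨y, hy⟩
    exact this ▸ mul_mem ihx ihy

end Fermat.Agent.S54
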